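/-
S26lib / P5a / Centre  (helper4)  --  Project K (S26)

The centre of a valuation ring of the function field on a universally closed scheme over a field
(the existence part of the valuative criterion, Mathlib's `UniversallyClosed.eq_valuativeCriterion`).
Mathlib objects only.
-/
import Mathlib

set_option autoImplicit false

universe u

open AlgebraicGeometry CategoryTheory TopologicalSpace IsLocalRing

namespace Fermat.Agent.S26lib.P5a

variable {K : Type u} [Field K] {X : Scheme.{u}} [IsIntegral X]

/-- the structure map `K ⟶ K(X)` of an integral `K`-scheme, as a morphism of `CommRingCat` -/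
noncomputable def constHom (f : X ⟶ Spec (CommRingCat.of K)) :
    CommRingCat.of K ⟶ X.functionField :=
  (Scheme.ΓSpecIso (CommRingCat.of K)).inv ≫ f.appTop ≫
    X.presheaf.germ ⊤ (genericPoint X) trivial

theorem fromSpecStalk_genericPoint_comp (f : X ⟶ Spec (CommRingCat.of K)) :
    X.fromSpecStalk (genericPoint X) ≫ f = Spec.map (constHom f) := by
  apply ext_of_isAffine
  rw [Scheme.Hom.comp_appTop, Scheme.fromSpecStalk_appTop]
  rw [← cancel_mono (Scheme.ΓSpecIso X.functionField).hom]
  simp only [Category.assoc, Scheme.ΓSpecIso_naturality, constHom]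
  simp

/-- **The centre of a valuation ring.**  `f : X ⟶ Spec K` universally closed and quasi-compact,
`X` integral, `W` a valuation ring of `K(X)` containing the constants.  Then there is a point `z`
with `O_{X,z} ⊆ W` and `𝔪_z ⊆ 𝔪_W`. -/
theorem exists_centre (f : X ⟶ Spec (CommRingCat.of K)) [UniversallyClosed f] [QuasiCompact f]
    (W : ValuationSubring X.functionField)
    (hW : ∀ c : K, (constHom f).hom c ∈ W) :
    ∃ z : X, (∀ a : X.presheaf.stalk z, algebraMap (X.presheaf.stalk z) X.functionField a ∈ W) ∧
      (∀ a : X.presheaf.stalk z, a ∈ maximalIdeal (X.presheaf.stalk z) →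
        algebraMap (X.presheaf.stalk z) X.functionField a ≠ 0 →
        (algebraMap (X.presheaf.stalk z) X.functionField a)⁻¹ ∉ W) := by
  have hex : ValuativeCriterion.Existence f := by
    have h : (@UniversallyClosed) f := inferInstance
    rw [UniversallyClosed.eq_valuativeCriterion] at h
    exact h.1
  -- the valuative square
  let ιW : CommRingCat.of W ⟶ X.functionField := CommRingCat.ofHom (algebraMap W X.functionField)
  let κ : CommRingCat.of K ⟶ CommRingCat.of W :=
    CommRingCat.ofHom ((constHom f).hom.codRestrict W.toSubring hW)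
  have hκ : κ ≫ ιW = constHom f := by
    ext c; rfl
  let S : ValuativeCommSq f :=
    { R := W
      K := X.functionField
      i₁ := X.fromSpecStalk (genericPoint X)
      i₂ := Spec.map κ
      commSq := ⟨by
        rw [fromSpecStalk_genericPoint_comp, ← Spec.map_comp]
        exact congrArg Spec.map hκ.symm⟩ }
  obtain ⟨⟨l, hl₁, hl₂⟩⟩ := (hex S).exists_lift
  change Spec.map ιW ≫ l = X.fromSpecStalk (genericPoint X) at hl₁
  let z : X := l (closedPoint W)
  let ψ : X.presheaf.stalk z ⟶ CommRingCat.of W := Scheme.stalkClosedPointTo l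
  have hψl : Spec.map ψ ≫ X.fromSpecStalk z = l := Scheme.Spec_stalkClosedPointTo_fromSpecStalk l
  have hspec : genericPoint X ⤳ z := (genericPoint_spec X).specializes trivial
  -- the two maps `O_z ⟶ K(X)` agree
  have hαβ : ψ ≫ ιW = X.presheaf.stalkSpecializes hspec := by
    apply Spec.map_injective
    rw [← cancel_mono (X.fromSpecStalk z), Scheme.SpecMap_stalkSpecializes_fromSpecStalk,
      Spec.map_comp, Category.assoc, hψl, hl₁]
  have halg : ∀ a : X.presheaf.stalk z,
      algebraMap (X.presheaf.stalk z) X.functionField a = ((ψ.hom a : W) : X.functionField) := by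
    intro a
    have := congrArg (fun φ => φ.hom a) hαβ
    simp only [RingHom.algebraMap_toAlgebra]
    exact this.symm
  refine ⟨z, fun a => ?_, fun a ha hne hinv => ?_⟩
  · rw [halg]; exact (ψ.hom a).2
  · rw [halg] at hne hinv
    have hloc : IsLocalHom ψ.hom := Scheme.isLocalHom_stalkClosedPointTo l
    have hnu : ¬ IsUnit (ψ.hom a) := fun hu =>
      (mem_maximalIdeal a).1 ha (hloc.map_nonunit a hu)
    apply hnu
    refine isUnit_iff_exists_inv.2 ⟨⟨_, hinv⟩, ?_⟩
    apply Subtype.ext
    simp only [MulMemClass.coe_mul, OneMemClass.coe_one]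
    exact mul_inv_cancel₀ hne

end Fermat.Agent.S26lib.P5a
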