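/-
S26lib / P5a / FinType  (helper4)  --  Project K (S26)

Finiteness bricks for `GrowthHyp`: the coordinate ring of an affine open of a `K`-scheme locally of
finite type is a finitely generated `K`-algebra; there are finitely many codimension-one points
outside a nonempty open of an integral noetherian scheme.  Mathlib objects only.
-/
import Fermat.Agent.S26lib.P5a.Centre

set_option autoImplicit false

universe u

open AlgebraicGeometry CategoryTheory TopologicalSpace

namespace Fermat.Agent.S26lib.P5a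

variable {K : Type u} [Field K] {X : Scheme.{u}}

/-- the structure map `K ⟶ Γ(X, U)` of a `K`-scheme -/
noncomputable def constHomOpen (f : X ⟶ Spec (CommRingCat.of K)) (U : X.Opens) :
    CommRingCat.of K ⟶ Γ(X, U) :=
  (Scheme.ΓSpecIso (CommRingCat.of K)).inv ≫ f.appLE ⊤ U le_top

theorem finiteType_constHomOpen (f : X ⟶ Spec (CommRingCat.of K)) [LocallyOfFiniteType f]
    {U : X.Opens} (hU : IsAffineOpen U) : (constHomOpen f U).hom.FiniteType := by
  have h1 : (f.appLE ⊤ U le_top).hom.FiniteType :=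
    f.finiteType_appLE (isAffineOpen_top _) hU le_top
  have h2 : ((Scheme.ΓSpecIso (CommRingCat.of K)).inv).hom.FiniteType :=
    RingHom.FiniteType.of_surjective _
      (ConcreteCategory.bijective_of_isIso (Scheme.ΓSpecIso (CommRingCat.of K)).inv).surjective
  exact h1.comp h2

theorem constHomOpen_germ [IsIntegral X] (f : X ⟶ Spec (CommRingCat.of K)) (U : X.Opens)
    [Nonempty U] : constHomOpen f U ≫ X.germToFunctionField U = constHom f := by
  have hη : genericPoint X ∈ U :=
    ((genericPoint_spec X).mem_open_set_iff U.isOpen).mpr (by simpa using ‹Nonempty U›)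
  have e : U ≤ f ⁻¹ᵁ ⊤ := le_top
  have h2 : X.presheaf.map (homOfLE e).op ≫ X.presheaf.germ U (genericPoint X) hη =
      X.presheaf.germ (f ⁻¹ᵁ ⊤) (genericPoint X) (e hη) :=
    TopCat.Presheaf.germ_res _ _ _ _
  have key : f.appLE ⊤ U e ≫ X.presheaf.germ U (genericPoint X) hη =
      f.appTop ≫ X.presheaf.germ ⊤ (genericPoint X) trivial := by
    calc f.appLE ⊤ U e ≫ X.presheaf.germ U (genericPoint X) hη
        = f.app ⊤ ≫ X.presheaf.map (homOfLE e).op ≫ X.presheaf.germ U (genericPoint X) hη := by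
          rw [Scheme.Hom.appLE, Category.assoc]
      _ = f.app ⊤ ≫ X.presheaf.germ (f ⁻¹ᵁ ⊤) (genericPoint X) (e hη) := by rw [h2]
      _ = f.appTop ≫ X.presheaf.germ ⊤ (genericPoint X) trivial := rfl
  show (Scheme.ΓSpecIso (CommRingCat.of K)).inv ≫ f.appLE ⊤ U e ≫
      X.presheaf.germ U (genericPoint X) hη = _
  rw [key]
  rfl

/-- In an integral noetherian scheme there are finitely many codimension-one points outside a
given nonempty open subset. -/
theorem finite_coheight_one_not_mem [IsIntegral X] [NoetherianSpace X] (U₀ : X.Opens)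
    [Nonempty U₀] : {P : X | Order.coheight P = 1 ∧ P ∉ U₀}.Finite := by
  classical
  obtain ⟨S, hSfin, hSc, hSi, hSU⟩ :=
    NoetherianSpace.exists_finite_set_isClosed_irreducible (U₀.isOpen.isClosed_compl)
  -- the generic point lies in `U₀`
  have hη : genericPoint X ∈ U₀ := by
    obtain ⟨⟨q, hq⟩⟩ := ‹Nonempty U₀›
    exact (genericPoint_specializes q).mem_open U₀.isOpen hq
  -- generic points of the pieces
  have hgen : ∀ t ∈ S, ∃ Q : X, IsGenericPoint Q t := fun t ht =>
    QuasiSober.sober (hSi t ht) (hSc t ht)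
  let G : Set X := {Q | ∃ t ∈ S, IsGenericPoint Q t}
  have hGfin : G.Finite := by
    have : G ⊆ ⋃ t ∈ S, {Q | IsGenericPoint Q t} := by
      rintro Q ⟨t, ht, hQ⟩
      exact Set.mem_biUnion ht hQ
    refine (Set.Finite.biUnion hSfin fun t _ => ?_).subset this
    refine Set.Subsingleton.finite ?_
    intro Q hQ Q' hQ'
    exact hQ.eq hQ'
  refine hGfin.subset ?_
  rintro P ⟨hP1, hPU⟩
  have hPZ : P ∈ (U₀ : Set X)ᶜ := hPU
  rw [hSU] at hPZ
  obtain ⟨t, htS, hPt⟩ := hPZ
  obtain ⟨Q, hQ⟩ := hgen t htS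
  have hQt : Q ∈ t := hQ.mem
  have hQZ : Q ∉ U₀ := by
    have : Q ∈ (U₀ : Set X)ᶜ := by rw [hSU]; exact ⟨t, htS, hQt⟩
    exact this
  -- `Q ⤳ P`
  have hQP : Q ⤳ P := by
    rw [specializes_iff_mem_closure, hQ.def]; exact hPt
  -- `Q < ⊤`
  have hQtop : Q < genericPoint X :=
    ⟨genericPoint_specializes Q, fun h =>
      hQZ ((show Q ⤳ genericPoint X from h).mem_open U₀.isOpen hη)⟩
  by_cases hPQ : P ⤳ Q
  · have : P = Q := (hPQ.antisymm hQP).eq
    exact ⟨t, htS, this ▸ hQ⟩
  · exfalso
    have hPltQ : P < Q := ⟨hQP, hPQ⟩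
    have h1 := Order.coheight_add_one_le hQtop
    have h2 := Order.coheight_add_one_le hPltQ
    rw [hP1] at h2
    have h3 : (1 : ℕ∞) ≤ Order.coheight Q := le_trans le_add_self h1
    have h4 : (1 : ℕ∞) + 1 ≤ 1 := le_trans (add_le_add_left h3 1) h2
    exact absurd h4 (by norm_num)

end Fermat.Agent.S26lib.P5a
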