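/-
S26lib / P5a / Trdeg  (helper4)  --  Project K (S26)

Transcendence degree of the function field of a smooth variety: if a domain `B` is étale over
`K[X₁..X_g]`, then `Frac B` has transcendence degree `g` over `K`; scheme form for
`SmoothOfRelativeDimension g`.  Mathlib objects only.
-/
import Fermat.Agent.S26lib.P5a.FinType

set_option autoImplicit false

universe u

open AlgebraicGeometry CategoryTheory TopologicalSpace

namespace Fermat.Agent.S26lib.P5a

section Algebra

open Algebra

/-- If the domain `B` is étale over the polynomial ring `K[X₁..X_g]`, then its fraction field has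
transcendence degree `g` over `K`. -/
theorem trdeg_eq_of_etale_mvPolynomial {K B F : Type u} [Field K] [CommRing B] [IsDomain B]
    [Field F] [Algebra K B] [Algebra B F] [Algebra K F] [IsScalarTower K B F]
    [IsFractionRing B F] (g : ℕ) (φ : MvPolynomial (Fin g) K →ₐ[K] B)
    (hφ : φ.toRingHom.Etale) : Algebra.trdeg K F = g := by
  let P := MvPolynomial (Fin g) K
  let : Algebra P B := φ.toRingHom.toAlgebra
  have : IsScalarTower K P B := .of_algebraMap_eq' φ.comp_algebraMap.symm
  have : Algebra.Etale P B := hφ
  let : Algebra P F := ((algebraMap B F).comp (algebraMap P B)).toAlgebra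
  have : IsScalarTower P B F := .of_algebraMap_eq' rfl
  have : IsScalarTower K P F := by
    refine .of_algebraMap_eq' ?_
    rw [IsScalarTower.algebraMap_eq K B F, IsScalarTower.algebraMap_eq K P B]
    rfl
  -- injectivity of `P → B → F`
  have : Module.Flat P B := inferInstance
  have hinjPB : Function.Injective (algebraMap P B) := by
    rw [injective_iff_map_eq_zero]
    intro p hp
    by_contra hp0
    have hreg : IsSMulRegular B p :=
      (Module.IsTorsionFree.isSMulRegular (R := P) (M := B)) (IsRegular.of_ne_zero hp0)
    have h1 : p • (1 : B) = p • (0 : B) := by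
      rw [Algebra.smul_def, mul_one, hp, smul_zero]
    exact one_ne_zero (hreg h1)
  have hinjPF : Function.Injective (algebraMap P F) :=
    (IsFractionRing.injective B F).comp hinjPB
  have : FaithfulSMul P F := (faithfulSMul_iff_algebraMap_injective P F).mpr hinjPF
  -- `F` is algebraic over `P`
  let E := FractionRing P
  let : Algebra E F := (IsFractionRing.lift hinjPF).toAlgebra
  have : IsScalarTower P E F :=
    IsScalarTower.of_algebraMap_eq fun x => (IsFractionRing.lift_algebraMap hinjPF x).symm
  have : Algebra.FormallyEtale B F := .of_isLocalization (nonZeroDivisors B)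
  have : Algebra.FormallyUnramified P F := Algebra.FormallyUnramified.comp P B F
  have : Algebra.FormallyUnramified E F := Algebra.FormallyUnramified.of_restrictScalars P E F
  have : Algebra.EssFiniteType B F := Algebra.EssFiniteType.of_isLocalization F (nonZeroDivisors B)
  have : Algebra.EssFiniteType P F := Algebra.EssFiniteType.comp P B F
  have : Algebra.EssFiniteType E F := Algebra.EssFiniteType.of_comp P E F
  have : Algebra.IsSeparable E F := Algebra.FormallyUnramified.isSeparable E F
  have : Algebra.IsAlgebraic E F := inferInstance
  have : Algebra.IsAlgebraic P F := (IsFractionRing.comap_isAlgebraic_iff (K := E)).mpr ‹_›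
  have h1 : Algebra.trdeg K P + Algebra.trdeg P F = Algebra.trdeg K F :=
    _root_.trdeg_add_eq K P
  have h2 : Algebra.trdeg P F = 0 := _root_.trdeg_eq_zero
  rw [h2, add_zero, MvPolynomial.trdeg_of_isDomain] at h1
  rw [← h1]
  simp

end Algebra

variable {K : Type u} [Field K] {X : Scheme.{u}}

/-- a nonempty open subset of the spectrum of a field is everything -/
theorem opens_spec_field_eq_top (U : (Spec (CommRingCat.of K)).Opens)
    (x : Spec (CommRingCat.of K)) (hx : x ∈ U) : U = ⊤ := by
  ext y
  simp only [Opens.coe_top, Set.mem_univ, iff_true, SetLike.mem_coe]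
  rwa [Subsingleton.elim y x]

/-- On a suitable nonempty affine chart, a smooth `K`-scheme of relative dimension `g` is
standard smooth of relative dimension `g` over `K`. -/
theorem exists_chart_isStandardSmooth (f : X ⟶ Spec (CommRingCat.of K)) (g : ℕ)
    [SmoothOfRelativeDimension g f] (x : X) :
    ∃ V : X.Opens, IsAffineOpen V ∧ x ∈ V ∧
      (constHomOpen f V).hom.IsStandardSmoothOfRelativeDimension g := by
  obtain ⟨U, hU, V, hV, hx, e, hstd⟩ :=
    SmoothOfRelativeDimension.exists_isStandardSmoothOfRelativeDimension (n := g) (f := f) x
  have hUtop : U = ⊤ := opens_spec_field_eq_top U (f x) (e hx)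
  subst hUtop
  refine ⟨V, hV, hx, ?_⟩
  let ε : K ≃+* Γ(Spec (CommRingCat.of K), ⊤) :=
    (Scheme.ΓSpecIso (CommRingCat.of K)).symm.commRingCatIsoToRingEquiv
  exact RingHom.isStandardSmoothOfRelativeDimension_respectsIso.right _ ε hstd

/-- **Transcendence degree of the function field** of an integral `K`-scheme which is smooth of
relative dimension `g`. -/
theorem trdeg_functionField_eq [IsIntegral X] (f : X ⟶ Spec (CommRingCat.of K)) (g : ℕ)
    [SmoothOfRelativeDimension g f] :
    @Algebra.trdeg K X.functionField _ _ (constHom f).hom.toAlgebra = g := by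
  obtain ⟨V, hV, hη, hstd⟩ := exists_chart_isStandardSmooth f g (genericPoint X)
  have : Nonempty V := ⟨⟨_, hη⟩⟩
  let _ : Algebra K Γ(X, V) := (constHomOpen f V).hom.toAlgebra
  let _ : Algebra K X.functionField := (constHom f).hom.toAlgebra
  have : IsScalarTower K Γ(X, V) X.functionField := by
    refine .of_algebraMap_eq' ?_
    have := constHomOpen_germ f V
    exact congrArg (fun φ => φ.hom) this.symm
  have : IsFractionRing Γ(X, V) X.functionField :=
    functionField_isFractionRing_of_isAffineOpen X V hV
  have hstd' : Algebra.IsStandardSmoothOfRelativeDimension g K Γ(X, V) := hstd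
  obtain ⟨φ, hφ⟩ := Algebra.IsStandardSmoothOfRelativeDimension.exists_etale_mvPolynomial
    g K Γ(X, V)
  exact trdeg_eq_of_etale_mvPolynomial g φ hφ

end Fermat.Agent.S26lib.P5a
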