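/-
S26lib / P5a / Hartogs  (helper4)  --  Project K (S26)

Algebraic Hartogs: a noetherian integrally closed domain is the intersection of its
localisations at the height-one primes.  Pure commutative algebra, Mathlib only.
-/
import Mathlib

set_option autoImplicit false

namespace Fermat.Agent.S26lib.P5a

open Ideal

section Algebra

variable {R K : Type*} [CommRing R] [IsDomain R] [Field K] [Algebra R K] [IsFractionRing R K]

/-- A prime of the form `(b : y)` (`b ≠ 0`) in a noetherian integrally closed domain has height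
one. -/
theorem height_eq_one_of_eq_colon {R : Type*} [CommRing R] [IsDomain R] [IsNoetherianRing R]
    [IsIntegrallyClosed R]
    (P : Ideal R) [hP : P.IsPrime] (b y : R) (hb : b ≠ 0)
    (hPy : ∀ r : R, r ∈ P ↔ b ∣ r * y) : P.height = 1 := by
  classical
  let K := FractionRing R
  have hbP : b ∈ P := (hPy b).2 (dvd_mul_right b y)
  have hinj : Function.Injective (algebraMap R K) := IsFractionRing.injective R K
  have hbK : algebraMap R K b ≠ 0 := by
    rwa [Ne, map_eq_zero_iff _ hinj]
  -- `z = y / b`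
  set z : K := algebraMap R K y / algebraMap R K b with hz
  -- (1) `z • P ⊆ R`
  have h1 : ∀ r ∈ P, ∃ c : R, z * algebraMap R K r = algebraMap R K c := by
    intro r hr
    obtain ⟨c, hc⟩ := (hPy r).1 hr
    refine ⟨c, ?_⟩
    rw [hz, div_mul_eq_mul_div, div_eq_iff hbK, ← map_mul, ← map_mul, mul_comm y r, hc, mul_comm]
  -- (2) `z ∉ R_P`
  have h2 : ∀ c s : R, z * algebraMap R K s = algebraMap R K c → s ∈ P := by
    intro c s h
    rw [hPy s]
    refine ⟨c, ?_⟩
    apply hinj
    rw [hz, div_mul_eq_mul_div, div_eq_iff hbK, ← map_mul, ← map_mul] at h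
    rw [mul_comm s y, h, mul_comm]
  -- (3) some `r₀ ∈ P` has `z r₀ ∉ P`
  have h3 : ∃ r₀ ∈ P, ∃ c₀ : R, c₀ ∉ P ∧ z * algebraMap R K r₀ = algebraMap R K c₀ := by
    by_contra hcon
    push Not at hcon
    -- then `z` stabilises the image of `P`, hence is integral
    let N : Submodule R K := Submodule.map (Algebra.linearMap R K) P
    have hNbot : N ≠ ⊥ := by
      intro h
      have : algebraMap R K b ∈ N := ⟨b, hbP, rfl⟩
      rw [h, Submodule.mem_bot] at this
      exact hbK this
    have hNfg : N.FG := Submodule.FG.map _ (IsNoetherian.noetherian P)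
    have hstab : ∀ n ∈ N, z • n ∈ N := by
      rintro _ ⟨r, hr, rfl⟩
      obtain ⟨c, hc⟩ := h1 r hr
      refine ⟨c, ?_, ?_⟩
      · by_contra hcP
        exact hcP (by_contra fun h => (hcon r hr c h) hc)
      · simp only [Algebra.linearMap_apply, smul_eq_mul]
        exact hc.symm
    have hint : IsIntegral R z := isIntegral_of_smul_mem_submodule N hNbot hNfg z hstab
    obtain ⟨c, hc⟩ := IsIntegrallyClosed.isIntegral_iff.1 hint
    have : (1 : R) ∈ P := h2 c 1 (by rw [map_one, mul_one, hc])
    exact hP.ne_top ((Ideal.eq_top_iff_one P).2 this)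
  obtain ⟨r₀, hr₀, c₀, hc₀, hzr⟩ := h3
  have hz0 : z ≠ 0 := by
    intro h0
    rw [h0, zero_mul] at hzr
    have : c₀ = 0 := by
      apply hinj
      rw [← hzr, map_zero]
    exact hc₀ (this ▸ P.zero_mem)
  -- (4) `c₀ • P ⊆ (r₀)`
  have h4 : ∀ r ∈ P, r₀ ∣ c₀ * r := by
    intro r hr
    obtain ⟨c, hc⟩ := h1 r hr
    refine ⟨c, ?_⟩
    apply hinj
    apply mul_left_cancel₀ hz0
    calc z * algebraMap R K (c₀ * r)
        = algebraMap R K c₀ * (z * algebraMap R K r) := by rw [map_mul]; ring
      _ = (z * algebraMap R K r₀) * algebraMap R K c := by rw [hc, hzr]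
      _ = z * algebraMap R K (r₀ * c) := by rw [map_mul]; ring
  -- (5) `P` is minimal over `(r₀)`
  have h5 : P ∈ (Ideal.span {r₀}).minimalPrimes := by
    refine ⟨⟨hP, (Ideal.span_singleton_le_iff_mem P).2 hr₀⟩, ?_⟩
    rintro Q ⟨hQ, hQr⟩ hQP r hr
    have : c₀ * r ∈ Q := by
      obtain ⟨c, hc⟩ := h4 r hr
      rw [hc]
      exact Q.mul_mem_right _ ((Ideal.span_singleton_le_iff_mem Q).1 hQr)
    rcases hQ.mem_or_mem this with h | h
    · exact absurd (hQP h) hc₀
    · exact h
  have hle : P.height ≤ 1 :=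
    Ideal.height_le_one_of_isPrincipal_of_mem_minimalPrimes (Ideal.span {r₀}) P h5
  have hne : P.height ≠ 0 := by
    rw [Ne, Ideal.height_eq_zero_iff_eq_bot]
    intro h
    rw [h, Ideal.mem_bot] at hbP
    exact hb hbP
  exact le_antisymm hle (Order.one_le_iff_pos.2 (pos_iff_ne_zero.2 hne))

/-- **Algebraic Hartogs.**  In a noetherian integrally closed domain `R` with fraction field `K`,
an element of `K` which lies in `R_𝔭` for every height-one prime `𝔭` lies in `R`. -/
theorem mem_range_of_forall_height_one [IsNoetherianRing R] [IsIntegrallyClosed R] (x : K)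
    (h : ∀ (p : Ideal R) [p.IsPrime], p.height = 1 →
      ∃ a s : R, s ∉ p ∧ x * algebraMap R K s = algebraMap R K a) :
    x ∈ (algebraMap R K).range := by
  classical
  have hinj : Function.Injective (algebraMap R K) := IsFractionRing.injective R K
  obtain ⟨a, b, hb, rfl⟩ := IsFractionRing.div_surjective (A := R) x
  have hb0 : (b : R) ≠ 0 := nonZeroDivisors.ne_zero hb
  have hbK : algebraMap R K b ≠ 0 := by rwa [Ne, map_eq_zero_iff _ hinj]
  by_cases hab : b ∣ a
  · obtain ⟨c, rfl⟩ := hab
    refine ⟨c, ?_⟩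
    rw [map_mul, mul_div_cancel_left₀ _ hbK]
  exfalso
  -- the module `R ⧸ (b)` and the nonzero class of `a`
  let I : Ideal R := Ideal.span {b}
  have hane : (Ideal.Quotient.mk I a) ≠ 0 := by
    rw [Ne, Ideal.Quotient.eq_zero_iff_mem, Ideal.mem_span_singleton]
    exact hab
  obtain ⟨P, hPass, hPle⟩ :=
    exists_le_isAssociatedPrime_of_isNoetherianRing R (Ideal.Quotient.mk I a) hane
  rw [isAssociatedPrime_iff] at hPass
  obtain ⟨hPprime, ybar, hPy⟩ := hPass
  obtain ⟨y, rfl⟩ := Ideal.Quotient.mk_surjective ybar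
  have key : ∀ r y : R, r • (Ideal.Quotient.mk I y) = Ideal.Quotient.mk I (r * y) :=
    fun r y => rfl
  have hmem : ∀ r : R, r ∈ P ↔ b ∣ r * y := by
    intro r
    rw [hPy, Submodule.mem_colon_singleton, Submodule.mem_bot, key,
      Ideal.Quotient.eq_zero_iff_mem, Ideal.mem_span_singleton]
  have hht : P.height = 1 := height_eq_one_of_eq_colon P b y hb0 hmem
  obtain ⟨a', s, hs, hxs⟩ := h P hht
  apply hs
  apply hPle
  rw [Submodule.mem_colon_singleton, Submodule.mem_bot, key,
    Ideal.Quotient.eq_zero_iff_mem, Ideal.mem_span_singleton]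
  refine ⟨a', ?_⟩
  apply hinj
  rw [div_mul_eq_mul_div, div_eq_iff hbK] at hxs
  rw [map_mul, map_mul, mul_comm, hxs, mul_comm]

end Algebra

end Fermat.Agent.S26lib.P5a
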