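/-
S26lib / P5a / HartogsScheme  (helper4)  --  Project K (S26)

Scheme forms of algebraic Hartogs, on Mathlib objects only: for a normal locally noetherian
integral scheme `X`, an element of the function field lying in the stalks of all codimension-one
points of an affine open `U` is a section over `U`; local form at a point.
-/
import Fermat.Agent.S26lib.P5a.Hartogs

set_option autoImplicit false

universe u

open AlgebraicGeometry CategoryTheory TopologicalSpace

namespace Fermat.Agent.S26lib.P5a

variable {X : Scheme.{u}}

/-- the point of an affine open attached to a prime of its coordinate ring lies in it -/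
theorem fromSpec_mem {U : X.Opens} (hU : IsAffineOpen U) (y : PrimeSpectrum Γ(X, U)) :
    hU.fromSpec y ∈ U := by
  have : hU.fromSpec y ∈ Set.range hU.fromSpec := ⟨y, rfl⟩
  rw [hU.range_fromSpec] at this
  exact this

/-- codimension of the point attached to a prime = height of the prime -/
theorem coheight_fromSpec {U : X.Opens} (hU : IsAffineOpen U) (y : Spec Γ(X, U)) :
    Order.coheight (hU.fromSpec y) = y.asIdeal.height := by
  rw [idealHeight_eq_coheight]
  exact coheight_eq_of_isOpenImmersion hU.fromSpec

variable [IsIntegral X]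

/-- The coordinate ring of an affine open of a normal integral scheme is integrally closed. -/
theorem isIntegrallyClosed_of_stalks (hN : ∀ x : X, IsIntegrallyClosed (X.presheaf.stalk x))
    {U : X.Opens} (hU : IsAffineOpen U) [Nonempty U] : IsIntegrallyClosed Γ(X, U) := by
  have : IsDomain Γ(X, U) := inferInstance
  refine IsIntegrallyClosed.of_localization_maximal fun p _ hp => ?_
  let y : PrimeSpectrum Γ(X, U) := ⟨p, hp.isPrime⟩
  have hy : hU.fromSpec y ∈ U := fromSpec_mem hU y
  let := TopCat.Presheaf.algebra_section_stalk X.presheaf ⟨hU.fromSpec y, hy⟩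
  have : IsLocalization.AtPrime (X.presheaf.stalk (hU.fromSpec y)) p :=
    hU.isLocalization_stalk' y hy
  have := hN (hU.fromSpec y)
  exact IsIntegrallyClosed.of_equiv
    (IsLocalization.algEquiv p.primeCompl (X.presheaf.stalk (hU.fromSpec y))
      (Localization.AtPrime p)).toRingEquiv

/-- **Hartogs on an affine open.**  `X` normal, locally noetherian, integral; `U` affine open.
A rational function lying in the stalk of every codimension-one point of `U` is regular on `U`. -/
theorem mem_range_germ_of_forall_coheight_one [IsLocallyNoetherian X]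
    (hN : ∀ x : X, IsIntegrallyClosed (X.presheaf.stalk x))
    {U : X.Opens} (hU : IsAffineOpen U) [Nonempty U] (w : X.functionField)
    (h : ∀ P : X, P ∈ U → Order.coheight P = 1 →
      w ∈ (algebraMap (X.presheaf.stalk P) X.functionField).range) :
    w ∈ (algebraMap Γ(X, U) X.functionField).range := by
  have : IsNoetherianRing Γ(X, U) := IsLocallyNoetherian.component_noetherian ⟨U, hU⟩
  have : IsFractionRing Γ(X, U) X.functionField :=
    functionField_isFractionRing_of_isAffineOpen X U hU
  have : IsIntegrallyClosed Γ(X, U) := isIntegrallyClosed_of_stalks hN hU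
  refine mem_range_of_forall_height_one w fun p hp hht => ?_
  let y : PrimeSpectrum Γ(X, U) := ⟨p, hp⟩
  have hy : hU.fromSpec y ∈ U := fromSpec_mem hU y
  have hco : Order.coheight (hU.fromSpec y) = 1 := by
    rw [coheight_fromSpec hU y]; exact hht
  obtain ⟨v, hv⟩ := h _ hy hco
  let _ := TopCat.Presheaf.algebra_section_stalk X.presheaf ⟨hU.fromSpec y, hy⟩
  have : IsLocalization.AtPrime (X.presheaf.stalk (hU.fromSpec y)) p :=
    hU.isLocalization_stalk' y hy
  obtain ⟨⟨a, s⟩, hs⟩ := IsLocalization.surj p.primeCompl v
  refine ⟨a, s.1, s.2, ?_⟩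
  have htower : IsScalarTower Γ(X, U) (X.presheaf.stalk (hU.fromSpec y)) X.functionField :=
    functionField_isScalarTower X U ⟨hU.fromSpec y, hy⟩
  rw [← hv, IsScalarTower.algebraMap_apply Γ(X, U) (X.presheaf.stalk (hU.fromSpec y))
      X.functionField, IsScalarTower.algebraMap_apply Γ(X, U) (X.presheaf.stalk (hU.fromSpec y))
      X.functionField, ← map_mul]
  exact congrArg _ hs

end Fermat.Agent.S26lib.P5a

namespace Fermat.Agent.S26lib.P5a

variable {X : Scheme.{u}} [IsIntegral X]

/-- **Hartogs at a point.**  `X` normal, locally noetherian, integral; `z : X`.  A rational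
function lying in the stalk of every codimension-one point specialising to `z` lies in the stalk
at `z`. -/
theorem mem_range_stalk_of_forall_coheight_one [IsLocallyNoetherian X]
    (hN : ∀ x : X, IsIntegrallyClosed (X.presheaf.stalk x)) (z : X) (w : X.functionField)
    (h : ∀ P : X, P ⤳ z → Order.coheight P = 1 →
      w ∈ (algebraMap (X.presheaf.stalk P) X.functionField).range) :
    w ∈ (algebraMap (X.presheaf.stalk z) X.functionField).range := by
  obtain ⟨_, ⟨U, hU : IsAffineOpen U, rfl⟩, hz, -⟩ :=
    X.isBasis_affineOpens.exists_subset_of_mem_open (Set.mem_univ z) isOpen_univ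
  have : Nonempty U := ⟨⟨z, hz⟩⟩
  have := hN z
  let q := hU.primeIdealOf ⟨z, hz⟩
  let _ := TopCat.Presheaf.algebra_section_stalk X.presheaf ⟨z, hz⟩
  have hloc : IsLocalization.AtPrime (X.presheaf.stalk z) q.asIdeal :=
    hU.isLocalization_stalk ⟨z, hz⟩
  have htz : IsScalarTower Γ(X, U) (X.presheaf.stalk z) X.functionField :=
    functionField_isScalarTower X U ⟨z, hz⟩
  refine mem_range_of_forall_height_one w fun p' hp' hht => ?_
  let p : Ideal Γ(X, U) := p'.under Γ(X, U)
  have hp : p.IsPrime := Ideal.IsPrime.under _ p'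
  have hpht : p.height = 1 := by
    rw [← hht]; exact IsLocalization.height_under q.asIdeal.primeCompl p'
  let y : Spec Γ(X, U) := ⟨p, hp⟩
  have hy : hU.fromSpec y ∈ U := fromSpec_mem hU y
  have hco : Order.coheight (hU.fromSpec y) = 1 := by
    rw [coheight_fromSpec hU y]; exact hpht
  have hle : p ≤ q.asIdeal := by
    have h1 : p' ≤ IsLocalRing.maximalIdeal (X.presheaf.stalk z) :=
      IsLocalRing.le_maximalIdeal hp'.ne_top
    have h2 : p'.under Γ(X, U) ≤
        (IsLocalRing.maximalIdeal (X.presheaf.stalk z)).under Γ(X, U) :=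
      Ideal.comap_mono h1
    rwa [IsLocalization.AtPrime.under_maximalIdeal (X.presheaf.stalk z) q.asIdeal] at h2
  have hspec : hU.fromSpec y ⤳ z := by
    have h3 : y ⤳ q := (PrimeSpectrum.le_iff_specializes y q).1 hle
    have h4 := h3.map hU.fromSpec.continuous
    rwa [hU.fromSpec_primeIdealOf ⟨z, hz⟩] at h4
  obtain ⟨v, hv⟩ := h _ hspec hco
  let _ := TopCat.Presheaf.algebra_section_stalk X.presheaf ⟨hU.fromSpec y, hy⟩
  have : IsLocalization.AtPrime (X.presheaf.stalk (hU.fromSpec y)) p :=
    hU.isLocalization_stalk' y hy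
  obtain ⟨⟨a, s⟩, hs⟩ := IsLocalization.surj p.primeCompl v
  have htower : IsScalarTower Γ(X, U) (X.presheaf.stalk (hU.fromSpec y)) X.functionField :=
    functionField_isScalarTower X U ⟨hU.fromSpec y, hy⟩
  refine ⟨algebraMap Γ(X, U) (X.presheaf.stalk z) a,
    algebraMap Γ(X, U) (X.presheaf.stalk z) s.1, fun hmem => s.2 hmem, ?_⟩
  rw [← IsScalarTower.algebraMap_apply Γ(X, U) (X.presheaf.stalk z) X.functionField,
    ← IsScalarTower.algebraMap_apply Γ(X, U) (X.presheaf.stalk z) X.functionField, ← hv,
    IsScalarTower.algebraMap_apply Γ(X, U) (X.presheaf.stalk (hU.fromSpec y)) X.functionField,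
    IsScalarTower.algebraMap_apply Γ(X, U) (X.presheaf.stalk (hU.fromSpec y)) X.functionField,
    ← map_mul]
  exact congrArg _ hs

end Fermat.Agent.S26lib.P5a
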