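/-
S26lib / P5a / DVR  (helper4)  --  Project K (S26)

On a normal locally noetherian integral scheme, the points whose stalk is a discrete valuation
ring are exactly the points of codimension one.  Mathlib objects only.
-/
import Mathlib

set_option autoImplicit false

universe u

open AlgebraicGeometry CategoryTheory TopologicalSpace IsLocalRing

namespace Fermat.Agent.S26lib.P5a

variable {X : Scheme.{u}} [IsIntegral X]

/-- a point whose stalk is a discrete valuation ring has codimension one -/
theorem coheight_eq_one_of_isDiscreteValuationRing (z : X)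
    [IsDiscreteValuationRing (X.presheaf.stalk z)] : Order.coheight z = 1 := by
  have h1 : ringKrullDim (X.presheaf.stalk z) = 1 :=
    IsDiscreteValuationRing.ringKrullDim_eq_one _
  rw [ringKrullDim_stalk_eq_coheight] at h1
  exact_mod_cast h1

/-- a codimension-one point of a normal locally noetherian integral scheme has a discrete
valuation ring as stalk -/
theorem isDiscreteValuationRing_of_coheight_eq_one [IsLocallyNoetherian X] (z : X)
    (hN : IsIntegrallyClosed (X.presheaf.stalk z)) (hz : Order.coheight z = 1) :
    IsDiscreteValuationRing (X.presheaf.stalk z) := by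
  have hdim : Ring.KrullDimLE 1 (X.presheaf.stalk z) := krullDimLE_of_coheight_le hz.le
  have h3 : IsIntegrallyClosed (X.presheaf.stalk z) ∧
      ∀ P : Ideal (X.presheaf.stalk z), P ≠ ⊥ → P.IsPrime →
        P = maximalIdeal (X.presheaf.stalk z) :=
    ⟨hN, fun P hP hPp => eq_maximalIdeal (hPp.isMaximal_of_ne_bot hP)⟩
  have hpir : IsPrincipalIdealRing (X.presheaf.stalk z) :=
    ((tfae_of_isNoetherianRing_of_isLocalRing_of_isDomain (X.presheaf.stalk z)).out 3 0).mp h3
  have hnf : ¬ IsField (X.presheaf.stalk z) := by
    intro hf
    have h0 : ringKrullDim (X.presheaf.stalk z) = 0 := by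
      let _ := hf.toField
      exact ringKrullDim_eq_zero_of_field _
    rw [ringKrullDim_stalk_eq_coheight, hz] at h0
    norm_num at h0
  exact { not_a_field' := isField_iff_maximalIdeal_eq.not.mp hnf }

theorem isDiscreteValuationRing_stalk_iff_coheight_eq_one [IsLocallyNoetherian X] (z : X)
    (hN : IsIntegrallyClosed (X.presheaf.stalk z)) :
    IsDiscreteValuationRing (X.presheaf.stalk z) ↔ Order.coheight z = 1 :=
  ⟨fun _ => coheight_eq_one_of_isDiscreteValuationRing z,
    isDiscreteValuationRing_of_coheight_eq_one z hN⟩

end Fermat.Agent.S26lib.P5a
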