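/-
S26lib / P5a / CentreFin  (helper4)  --  Project K (S26)

The `centre` clause of `GrowthHyp` on the scheme side, with a FINITE set of candidate
denominators: `X` integral normal locally noetherian, universally closed and quasi-compact over a
field `K`, `U₀` a nonempty open.  Mathlib objects only.
-/
import Fermat.Agent.S26lib.P5a.HartogsScheme
import Fermat.Agent.S26lib.P5a.Centre

set_option autoImplicit false

universe u

open AlgebraicGeometry CategoryTheory TopologicalSpace IsLocalRing

namespace Fermat.Agent.S26lib.P5a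

variable {X : Scheme.{u}} [IsIntegral X]

/-- the image of a stalk in the function field -/
noncomputable abbrev stalkRange (X : Scheme.{u}) [IsIntegral X] (P : X) : Subring X.functionField :=
  (algebraMap (X.presheaf.stalk P) X.functionField).range

/-- `y` has poles of order at most `k` along the codimension-one points outside `U₀` and no other
poles (stated with stalks only). -/
def PoleBound (U₀ : X.Opens) (k : ℕ) (y : X.functionField) : Prop :=
  ∀ P : X, Order.coheight P = 1 →
    (P ∈ U₀ → y ∈ stalkRange X P) ∧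
    (P ∉ U₀ → ∀ s ∈ maximalIdeal (X.presheaf.stalk P),
      y * (algebraMap (X.presheaf.stalk P) X.functionField s) ^ k ∈ stalkRange X P)

theorem germ_mem_stalkRange {V : X.Opens} [Nonempty V] (t : Γ(X, V)) {z : X} (hz : z ∈ V) :
    X.germToFunctionField V t ∈ stalkRange X z :=
  ⟨X.presheaf.germ V z hz t, X.algebraMap_germ_eq_germToFunctionField hz t⟩

/-- If `t ∈ Γ(V)` vanishes off `U₀` and `y` has poles of order `≤ k` off `U₀` only, then
`y t^k` is regular at every point of `V`. -/
theorem mul_pow_mem_stalkRange [IsLocallyNoetherian X]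
    (hN : ∀ x : X, IsIntegrallyClosed (X.presheaf.stalk x)) (U₀ : X.Opens)
    {V : X.Opens} [Nonempty V] (t : Γ(X, V)) (ht : X.basicOpen t ≤ U₀)
    {z : X} (hz : z ∈ V) {k : ℕ} {y : X.functionField} (hy : PoleBound U₀ k y) :
    y * (X.germToFunctionField V t) ^ k ∈ stalkRange X z := by
  refine mem_range_stalk_of_forall_coheight_one hN z _ fun P hPz hP => ?_
  have hPV : P ∈ V := hPz.mem_open V.isOpen hz
  by_cases hPU : P ∈ U₀
  · exact Subring.mul_mem _ ((hy P hP).1 hPU) (Subring.pow_mem _ (germ_mem_stalkRange t hPV) k)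
  · have hnu : ¬ IsUnit (X.presheaf.germ V P hPV t) := fun hu =>
      hPU (ht ((X.mem_basicOpen t P hPV).2 hu))
    have := (hy P hP).2 hPU (X.presheaf.germ V P hPV t) ((mem_maximalIdeal _).2 hnu)
    rwa [X.algebraMap_germ_eq_germToFunctionField hPV t] at this

/-- **`GrowthHyp.centre`, scheme side, finite-candidate form.** -/
theorem exists_finset_centre {K : Type u} [Field K] [IsLocallyNoetherian X]
    (hN : ∀ x : X, IsIntegrallyClosed (X.presheaf.stalk x))
    (f : X ⟶ Spec (CommRingCat.of K)) [UniversallyClosed f] [QuasiCompact f]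
    (U₀ : X.Opens) [Nonempty U₀] :
    ∃ T : Finset X.functionField, (∀ t ∈ T, t ≠ 0) ∧
      ∀ W : ValuationSubring X.functionField, (∀ c : K, (constHom f).hom c ∈ W) →
        (¬ ∀ b : Γ(X, U₀), X.germToFunctionField U₀ b ∈ W) →
        ∃ t ∈ T, t ∈ W ∧ t⁻¹ ∉ W ∧
          ∀ (k : ℕ) (y : X.functionField), PoleBound U₀ k y → y * t ^ k ∈ W := by
  classical
  have hcpt : CompactSpace X := QuasiCompact.compactSpace_of_compactSpace f
  -- for every point an affine chart and a nonzero section vanishing off `U₀`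
  have hchart : ∀ x : X, ∃ V : X.Opens, IsAffineOpen V ∧ x ∈ V ∧
      ∃ (_ : Nonempty V) (t : Γ(X, V)), t ≠ 0 ∧ X.basicOpen t ≤ U₀ := by
    intro x
    obtain ⟨_, ⟨V, hV : IsAffineOpen V, rfl⟩, hxV, -⟩ :=
      X.isBasis_affineOpens.exists_subset_of_mem_open (Set.mem_univ x) isOpen_univ
    have hne : Nonempty V := ⟨⟨x, hxV⟩⟩
    -- a point of `V ∩ U₀`
    obtain ⟨p, hpV, hpU⟩ : ∃ p : X, p ∈ V ∧ p ∈ U₀ := by
      have h1 : (V : Set X).Nonempty := ⟨x, hxV⟩
      have h2 : (U₀ : Set X).Nonempty := by
        obtain ⟨⟨q, hq⟩⟩ := ‹Nonempty U₀›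
        exact ⟨q, hq⟩
      obtain ⟨p, hp⟩ := nonempty_preirreducible_inter V.isOpen U₀.isOpen h1 h2
      exact ⟨p, hp.1, hp.2⟩
    obtain ⟨t, ht, hpt⟩ := hV.exists_basicOpen_le (V := U₀) ⟨p, hpU⟩ hpV
    refine ⟨V, hV, hxV, hne, t, ?_, ht⟩
    rintro rfl
    rw [Scheme.basicOpen_zero] at hpt
    exact hpt
  choose V hVaff hxV hVne t ht0 htU using hchart
  obtain ⟨s, hs⟩ := CompactSpace.elim_nhds_subcover (fun x => (V x : Set X))
    (fun x => (V x).isOpen.mem_nhds (hxV x))
  let τ : X → X.functionField := fun x =>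
    have := hVne x
    X.germToFunctionField (V x) (t x)
  refine ⟨s.image τ, ?_, ?_⟩
  · intro u hu
    obtain ⟨x, -, rfl⟩ := Finset.mem_image.1 hu
    have := hVne x
    intro h0
    apply ht0 x
    apply X.germToFunctionField_injective (V x)
    rw [map_zero]
    exact h0
  · intro W hW hWU
    obtain ⟨z, hz1, hz2⟩ := exists_centre f W hW
    -- the centre is not in `U₀`
    have hzU : z ∉ U₀ := by
      intro hzU
      apply hWU
      intro b
      have := hz1 (X.presheaf.germ U₀ z hzU b)
      rwa [X.algebraMap_germ_eq_germToFunctionField hzU b] at this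
    -- a chart containing the centre
    have hzs : z ∈ ⋃ x ∈ s, (V x : Set X) := by rw [hs]; trivial
    obtain ⟨x, hxs, hzx⟩ : ∃ x ∈ s, z ∈ (V x : Set X) := by
      simpa only [Set.mem_iUnion, exists_prop] using hzs
    replace hzx : z ∈ V x := hzx
    have := hVne x
    have hτ : τ x = X.germToFunctionField (V x) (t x) := rfl
    have hτ0 : τ x ≠ 0 := by
      intro h0
      apply ht0 x
      apply X.germToFunctionField_injective (V x)
      rw [map_zero]
      exact h0
    refine ⟨τ x, Finset.mem_image_of_mem τ hxs, ?_, ?_, ?_⟩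
    · have := hz1 (X.presheaf.germ (V x) z hzx (t x))
      rwa [X.algebraMap_germ_eq_germToFunctionField hzx (t x)] at this
    · have hnu : ¬ IsUnit (X.presheaf.germ (V x) z hzx (t x)) := fun hu =>
        hzU (htU x ((X.mem_basicOpen (t x) z hzx).2 hu))
      have := hz2 (X.presheaf.germ (V x) z hzx (t x)) ((mem_maximalIdeal _).2 hnu)
      rw [X.algebraMap_germ_eq_germToFunctionField hzx (t x)] at this
      exact this hτ0
    · intro k y hy
      obtain ⟨a, ha⟩ := mul_pow_mem_stalkRange hN U₀ (t x) (htU x) hzx hy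
      rw [hτ, ← ha]
      exact hz1 a

end Fermat.Agent.S26lib.P5a
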