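/-
S26lib / P5a / Main  (helper4)  --  Project K (S26)

**(P5a): `GrowthHyp` for the thin Weil model of a complete normal `K`-variety.**

`X` an integral noetherian scheme with integrally closed stalks, `f : X ⟶ Spec K` universally
closed, locally of finite type and smooth of relative dimension `g`; `U₀` a nonempty affine open
and `D` the reduced divisor "sum of the prime divisors outside `U₀`".  Then helper7's
`GrowthHyp (Weil.model f) D g` holds (helper9's `Weil.model`).
-/
import Fermat.Agent.S26lib.Weil.Model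
import Fermat.Agent.S26lib.P5a.CentreFin
import Fermat.Agent.S26lib.P5a.FinType
import Fermat.Agent.S26lib.P5a.Trdeg
import Fermat.Agent.S26lib.P5a.DVR

set_option autoImplicit false
set_option linter.style.haveILetI false

universe u

open AlgebraicGeometry CategoryTheory TopologicalSpace IsLocalRing

namespace Fermat.Agent.S26lib.P5a

variable {K : Type u} [Field K] {X : Scheme.{u}} [IsIntegral X]

theorem constHom_eq_kToFF (f : X ⟶ Spec (CommRingCat.of K)) : constHom f = kToFF f := rfl

section LN

variable [IsLocallyNoetherian X]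

/-- a codimension-one point of a normal scheme, as a prime divisor -/
noncomputable def primeDivOf (hN : ∀ x : X, IsIntegrallyClosed (X.presheaf.stalk x)) (P : X)
    (hP : Order.coheight P = 1) : Weil.PrimeDiv X :=
  ⟨P, isDiscreteValuationRing_of_coheight_eq_one P (hN P) hP⟩

theorem ordAt_one (P : Weil.PrimeDiv X) : Weil.ordAt P (1 : X.functionField) = 0 := by
  have h := Weil.ordAt_mul P (one_ne_zero : (1 : X.functionField) ≠ 0) one_ne_zero
  rw [one_mul] at h
  omega

theorem ordAt_inv (P : Weil.PrimeDiv X) {x : X.functionField} (hx : x ≠ 0) :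
    Weil.ordAt P x⁻¹ = - Weil.ordAt P x := by
  have h := Weil.ordAt_mul P hx (inv_ne_zero hx)
  rw [mul_inv_cancel₀ hx, ordAt_one] at h
  omega

theorem ordAt_pow (P : Weil.PrimeDiv X) {x : X.functionField} (hx : x ≠ 0) (k : ℕ) :
    Weil.ordAt P (x ^ k) = k * Weil.ordAt P x := by
  induction k with
  | zero => simp [ordAt_one]
  | succ k ih =>
    rw [pow_succ, Weil.ordAt_mul P (pow_ne_zero k hx) hx, ih]
    push_cast
    ring

/-- a nonzero element of the maximal ideal of the local ring of a prime divisor has positive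
order -/
theorem one_le_ordAt_of_mem_maximalIdeal (P : Weil.PrimeDiv X) {s : X.presheaf.stalk P.1}
    (hs : s ∈ maximalIdeal (X.presheaf.stalk P.1)) (hs0 : s ≠ 0) :
    1 ≤ Weil.ordAt P (algebraMap (X.presheaf.stalk P.1) X.functionField s) := by
  have hinj : Function.Injective (algebraMap (X.presheaf.stalk P.1) X.functionField) :=
    IsFractionRing.injective _ _
  have hx0 : algebraMap (X.presheaf.stalk P.1) X.functionField s ≠ 0 := by
    rwa [Ne, map_eq_zero_iff _ hinj]
  have h0 : 0 ≤ Weil.ordAt P (algebraMap (X.presheaf.stalk P.1) X.functionField s) :=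
    (Weil.ordAt_nonneg_iff P hx0).2 ⟨s, rfl⟩
  by_contra hlt
  have h1 : Weil.ordAt P (algebraMap (X.presheaf.stalk P.1) X.functionField s) = 0 := by omega
  have h2 : 0 ≤ Weil.ordAt P (algebraMap (X.presheaf.stalk P.1) X.functionField s)⁻¹ := by
    rw [ordAt_inv P hx0, h1, neg_zero]
  obtain ⟨b, hb⟩ := (Weil.ordAt_nonneg_iff P (inv_ne_zero hx0)).1 h2
  have hb' : algebraMap (X.presheaf.stalk P.1) X.functionField b =
      (algebraMap (X.presheaf.stalk P.1) X.functionField s)⁻¹ := hb
  have h3 : s * b = 1 := by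
    apply hinj
    rw [map_mul, map_one, hb', mul_inv_cancel₀ hx0]
  exact (mem_maximalIdeal s).1 hs (IsUnit.of_mul_eq_one b h3)

end LN

section Model

variable [IsNoetherian X] (f : X ⟶ Spec (CommRingCat.of K))
  (hN : ∀ x : X, IsIntegrallyClosed (X.presheaf.stalk x))
  {U₀ : X.Opens} [Nonempty U₀]
  (D : Weil.PrimeDiv X → ℕ) (hD0 : ∀ P : Weil.PrimeDiv X, P.1 ∈ U₀ → D P = 0)
  (hD1 : ∀ P : Weil.PrimeDiv X, P.1 ∉ U₀ → D P = 1)

omit [AlgebraicGeometry.IsNoetherian X] [Nonempty U₀] in
include hD1 in
theorem mem_of_D_eq_zero {P : Weil.PrimeDiv X} (h : D P = 0) : P.1 ∈ U₀ := by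
  by_contra hP
  rw [hD1 P hP] at h
  exact one_ne_zero h

include hD0 in
/-- the divisor `D` has finite support -/
theorem finite_D_ne_zero : {P : Weil.PrimeDiv X | D P ≠ 0}.Finite := by
  have hfin := finite_coheight_one_not_mem (X := X) U₀
  refine (hfin.preimage (f := fun P : Weil.PrimeDiv X => P.1) ?_).subset ?_
  · intro P _ Q _ h
    exact Subtype.ext h
  · intro P hP
    refine ⟨Weil.coheight_primeDiv P, fun hPU => hP (hD0 P hPU)⟩

include hN hD0 hD1 in
/-- the functions regular off `D` are the sections over `U₀` -/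
theorem mem_regOff_iff (hU₀ : IsAffineOpen U₀) (x : X.functionField) :
    letI := kAlgebraFF f
    x ∈ (Weil.model f).regOff D ↔ x ∈ Set.range (X.germToFunctionField U₀).hom := by
  letI := kAlgebraFF f
  show (x = 0 ∨ ∀ P : Weil.PrimeDiv X, D P = 0 → 0 ≤ Weil.ordAt P x) ↔ _
  constructor
  · rintro (rfl | h)
    · exact ⟨0, map_zero _⟩
    · rcases eq_or_ne x 0 with rfl | hx
      · exact ⟨0, map_zero _⟩
      have := mem_range_germ_of_forall_coheight_one hN hU₀ x (fun P hPU hP => by
        have h1 := h (primeDivOf hN P hP) (hD0 _ hPU)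
        exact (Weil.ordAt_nonneg_iff (primeDivOf hN P hP) hx).1 h1)
      exact this
  · rintro ⟨b, rfl⟩
    rcases eq_or_ne ((X.germToFunctionField U₀).hom b) 0 with h0 | h0
    · exact Or.inl h0
    · refine Or.inr fun P hP => ?_
      have hPU : P.1 ∈ U₀ := mem_of_D_eq_zero D hD1 hP
      exact (Weil.ordAt_nonneg_iff P h0).2 (germ_mem_stalkRange b hPU)

include hN hD0 hD1 in
/-- the ring of the functions regular off `D` is a finitely generated `K`-algebra -/
theorem fg_regOff [LocallyOfFiniteType f] (hU₀ : IsAffineOpen U₀) :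
    letI := kAlgebraFF f
    ((Weil.model f).regOff D).FG := by
  letI := kAlgebraFF f
  letI : Algebra K Γ(X, U₀) := (constHomOpen f U₀).hom.toAlgebra
  have hft : Algebra.FiniteType K Γ(X, U₀) := finiteType_constHomOpen f hU₀
  let φ : Γ(X, U₀) →ₐ[K] X.functionField :=
    { (X.germToFunctionField U₀).hom with
      commutes' := fun c => by
        have := constHomOpen_germ f U₀
        exact congrArg (fun g => g.hom c) this }
  have hrange : (Weil.model f).regOff D = φ.range := by
    ext x
    rw [mem_regOff_iff f hN D hD0 hD1 hU₀ x]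
    rfl
  rw [hrange, ← Algebra.map_top]
  exact hft.out.map φ

include hN hD0 hD1 in
/-- every rational function is a quotient of functions regular off `D` -/
theorem frac_regOff (hU₀ : IsAffineOpen U₀) (x : X.functionField) :
    letI := kAlgebraFF f
    ∃ a ∈ (Weil.model f).regOff D, ∃ b ∈ (Weil.model f).regOff D, b ≠ 0 ∧ x = a / b := by
  letI := kAlgebraFF f
  have : IsFractionRing Γ(X, U₀) X.functionField :=
    functionField_isFractionRing_of_isAffineOpen X U₀ hU₀
  obtain ⟨a, b, hb, rfl⟩ := IsFractionRing.div_surjective (A := Γ(X, U₀)) x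
  refine ⟨_, (mem_regOff_iff f hN D hD0 hD1 hU₀ _).2 ⟨a, rfl⟩, _,
    (mem_regOff_iff f hN D hD0 hD1 hU₀ _).2 ⟨b, rfl⟩, ?_, rfl⟩
  exact IsFractionRing.to_map_ne_zero_of_mem_nonZeroDivisors hb

omit [Nonempty U₀] in
include hN hD0 hD1 in
/-- elements of `L(kD)` have poles of order at most `k` off `U₀` and no other poles -/
theorem poleBound_of_mem_L {k : ℕ} {y : X.functionField}
    (hy : letI := kAlgebraFF f
      y ∈ (Weil.model f).L ((Weil.model f).nsmulDiv k D)) : PoleBound U₀ k y := by
  letI := kAlgebraFF f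
  have hy' : y = 0 ∨ ∀ P : Weil.PrimeDiv X, -((k : ℤ) * (D P : ℤ)) ≤ Weil.ordAt P y := hy
  intro P hP
  rcases hy' with rfl | hy'
  · exact ⟨fun _ => Subring.zero_mem _, fun _ s _ => by rw [zero_mul]; exact Subring.zero_mem _⟩
  rcases eq_or_ne y 0 with rfl | hy0
  · exact ⟨fun _ => Subring.zero_mem _, fun _ s _ => by rw [zero_mul]; exact Subring.zero_mem _⟩
  have hle := hy' (primeDivOf hN P hP)
  constructor
  · intro hPU
    rw [hD0 (primeDivOf hN P hP) hPU] at hle
    have h0 : 0 ≤ Weil.ordAt (primeDivOf hN P hP) y := by simpa using hle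
    exact (Weil.ordAt_nonneg_iff (primeDivOf hN P hP) hy0).1 h0
  · intro hPU s hs
    rw [hD1 (primeDivOf hN P hP) hPU] at hle
    rcases eq_or_ne s 0 with rfl | hs0
    · rcases Nat.eq_zero_or_pos k with rfl | hk
      · rw [pow_zero, mul_one]
        have h0 : 0 ≤ Weil.ordAt (primeDivOf hN P hP) y := by simpa using hle
        exact (Weil.ordAt_nonneg_iff (primeDivOf hN P hP) hy0).1 h0
      · rw [map_zero, zero_pow hk.ne', mul_zero]
        exact Subring.zero_mem _
    · have h1 := one_le_ordAt_of_mem_maximalIdeal (primeDivOf hN P hP) hs hs0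
      have hinj : Function.Injective (algebraMap (X.presheaf.stalk P) X.functionField) :=
        IsFractionRing.injective _ _
      have hx0 : algebraMap (X.presheaf.stalk P) X.functionField s ≠ 0 := by
        rwa [Ne, map_eq_zero_iff _ hinj]
      have hne : y * (algebraMap (X.presheaf.stalk P) X.functionField s) ^ k ≠ 0 :=
        mul_ne_zero hy0 (pow_ne_zero k hx0)
      refine (Weil.ordAt_nonneg_iff (primeDivOf hN P hP) hne).1 ?_
      rw [Weil.ordAt_mul _ hy0 (pow_ne_zero k hx0), ordAt_pow _ hx0]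
      have h2 : (k : ℤ) * 1 ≤ (k : ℤ) * Weil.ordAt (primeDivOf hN P hP)
          (algebraMap (X.presheaf.stalk P) X.functionField s) :=
        mul_le_mul_of_nonneg_left h1 (Int.natCast_nonneg k)
      have h3 : -((k : ℤ) * ((1 : ℕ) : ℤ)) ≤ Weil.ordAt (primeDivOf hN P hP) y := hle
      push_cast at h3
      linarith

include hN hD0 hD1 in
/-- **`GrowthHyp.centre`, finite-candidate form**, for the thin Weil model. -/
theorem exists_finset_centre_model [UniversallyClosed f] (hU₀ : IsAffineOpen U₀) :
    letI := kAlgebraFF f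
    ∃ T : Finset X.functionField, (∀ t ∈ T, t ≠ 0) ∧
      ∀ W : ValuationSubring X.functionField,
        (∀ c : K, algebraMap K X.functionField c ∈ W) →
        ¬ (∀ x ∈ (Weil.model f).regOff D, x ∈ W) →
        ∃ t ∈ T, t ∈ W ∧ t⁻¹ ∉ W ∧
          ∀ (k : ℕ) (y : X.functionField),
            y ∈ (Weil.model f).L ((Weil.model f).nsmulDiv k D) → y * t ^ k ∈ W := by
  letI := kAlgebraFF f
  have hqc : QuasiCompact f := inferInstance
  obtain ⟨T, hT0, hT⟩ := exists_finset_centre hN f U₀
  refine ⟨T, hT0, fun W hK hW => ?_⟩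
  have hW' : ¬ ∀ b : Γ(X, U₀), X.germToFunctionField U₀ b ∈ W := by
    intro h
    apply hW
    intro x hx
    obtain ⟨b, rfl⟩ := (mem_regOff_iff f hN D hD0 hD1 hU₀ x).1 hx
    exact h b
  obtain ⟨t, htT, htW, htinv, ht⟩ := hT W hK hW'
  exact ⟨t, htT, htW, htinv, fun k y hy => ht k y (poleBound_of_mem_L f hN D hD0 hD1 hy)⟩

include hN hD0 hD1 in
/-- **(P5a)**: the growth hypotheses for the thin Weil model of a complete smooth normal variety
and the reduced divisor `D` with affine complement `U₀`. -/
theorem growthHyp_model [UniversallyClosed f] [LocallyOfFiniteType f] (g : ℕ)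
    [SmoothOfRelativeDimension g f] (hU₀ : IsAffineOpen U₀) :
    letI := kAlgebraFF f
    (Weil.model f).GrowthHyp D g := by
  letI := kAlgebraFF f
  refine
    { finite_supp := finite_D_ne_zero D hD0
      fg := fg_regOff f hN D hD0 hD1 hU₀
      frac := frac_regOff f hN D hD0 hD1 hU₀
      trdeg := trdeg_functionField_eq f g
      centre := ?_ }
  obtain ⟨T, hT0, hT⟩ := exists_finset_centre_model f hN D hD0 hD1 hU₀
  refine ⟨T, hT0, fun W hK hW => ?_⟩
  obtain ⟨t, htT, _, _, ht⟩ := hT W hK hW
  exact ⟨t, htT, ht⟩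

end Model

end Fermat.Agent.S26lib.P5a
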