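/-
S26lib / P5a / Abelian  (helper4)  --  Project K (S26)

**(P5a) for the S26 abelian variety**: helper7's `GrowthHyp` for helper9's thin Weil model
`Weil.model f` of `A` and the divisor `Weil.D L` (the reduced sum of the prime divisors outside the
symmetric affine open `Weil.U₀ L`).
-/
import Fermat.Agent.S26lib.Weil.Defs
import Fermat.Agent.S26lib.P5a.Main

set_option autoImplicit false
set_option linter.style.haveILetI false

universe u

open AlgebraicGeometry CategoryTheory TopologicalSpace NeronModelInfra GoodReductionJacobian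

namespace Fermat.Agent.S26lib.P5a

variable {K : Type u} [Field K] [IsAlgClosed K] {A : Scheme.{u}}
  {f : A ⟶ Spec (CommRingCat.of K)}

/-- **(P5a)**: the growth hypotheses for the abelian variety of S26. -/
theorem growthHyp_abelian (L : RelativeGroupLaw K f) (hA : AbelianSchemePropertyBundle K f)
    (g : ℕ) [SmoothOfRelativeDimension g f] :
    haveI := Weil.isIntegral_of_bundle hA
    haveI := Weil.isNoetherian_of_bundle hA
    letI := kAlgebraFF f
    (Weil.model f).GrowthHyp (Weil.D L) g := by
  haveI := Weil.isIntegral_of_bundle hA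
  haveI := Weil.isNoetherian_of_bundle hA
  haveI := hA.proper
  haveI := hA.smooth
  haveI := Weil.nonempty_U₀ L
  refine growthHyp_model f (fun x => UFD.isIntegrallyClosed_stalk_of_smooth f x) (Weil.D L)
    (fun P h => (Weil.D_eq_zero_iff L P).2 h) (fun P h => ?_) g (Weil.isAffineOpen_U₀ L)
  classical
  rw [Weil.D_apply, if_neg h]

/-- the finite-candidate form of the `centre` clause for the abelian variety of S26 -/
theorem exists_finset_centre_abelian (L : RelativeGroupLaw K f)
    (hA : AbelianSchemePropertyBundle K f) :
    haveI := Weil.isIntegral_of_bundle hA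
    haveI := Weil.isNoetherian_of_bundle hA
    letI := kAlgebraFF f
    ∃ T : Finset A.functionField, (∀ t ∈ T, t ≠ 0) ∧
      ∀ W : ValuationSubring A.functionField,
        (∀ c : K, algebraMap K A.functionField c ∈ W) →
        ¬ (∀ x ∈ (Weil.model f).regOff (Weil.D L), x ∈ W) →
        ∃ t ∈ T, t ∈ W ∧ t⁻¹ ∉ W ∧
          ∀ (k : ℕ) (y : A.functionField),
            y ∈ (Weil.model f).L ((Weil.model f).nsmulDiv k (Weil.D L)) → y * t ^ k ∈ W := by
  haveI := Weil.isIntegral_of_bundle hA
  haveI := Weil.isNoetherian_of_bundle hA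
  haveI := hA.proper
  haveI := hA.smooth
  haveI := Weil.nonempty_U₀ L
  refine exists_finset_centre_model f (fun x => UFD.isIntegrallyClosed_stalk_of_smooth f x)
    (Weil.D L) (fun P h => (Weil.D_eq_zero_iff L P).2 h) (fun P h => ?_) (Weil.isAffineOpen_U₀ L)
  classical
  rw [Weil.D_apply, if_neg h]

end Fermat.Agent.S26lib.P5a
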